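import Mathlib
import Fermat.Agent.PET.Eigen
import Fermat.Agent.S42.Int

/-!
# S58 GLUE, brick CHI (helper66): the eigencharacter of a normalised eigenform

For a normalised eigenform `g` of level `M` and a set `S` containing the primes dividing `M`,
the Hecke algebra away from `S` acts on `g` through a ring homomorphism `chig` to `ℂ` with
`chig T_ℓ = a_ℓ(g)`, and the range of `chig` lies in every subring of `ℂ` containing the `a_ℓ(g)`,
`ℓ ∉ S`.
-/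

set_option autoImplicit false

namespace Fermat.Agent.S58

open CongruenceSubgroup ModularFormClass

variable {M : ℕ} [NeZero M]

/-- every element of the Hecke algebra away from `S ⊇ primes(M)` acts on a normalised eigenform
by a scalar from any subring containing the eigenvalues `a_ℓ`, `ℓ ∉ S` -/
theorem s58g_eigen (g : CuspForm (Gamma0 M) 2) (hg : g.IsNormalizedEigenform) (S : Set ℕ)
    (hMS : ∀ q : ℕ, q.Prime → q ∣ M → q ∈ S) (R : Subring ℂ)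
    (hR : ∀ ℓ : ℕ, ℓ.Prime → ¬ ℓ ∣ M → ℓ ∉ S → qCoeff ⇑g ℓ ∈ R)
    (s : Module.End ℂ (CuspForm (Gamma0 M) 2)) (hs : s ∈ CuspForm.heckeAlgebra M 2 S) :
    ∃ c : ℂ, c ∈ R ∧ s g = c • g := by
  unfold CuspForm.heckeAlgebra at hs
  induction hs using Algebra.adjoin_induction with
  | mem x hx =>
    rcases hx with ⟨ℓ, hℓ, hℓM, hℓS, rfl⟩ | ⟨q, hqM, hq, hqS, rfl⟩
    · exact ⟨qCoeff ⇑g ℓ, hR ℓ hℓ hℓM hℓS,
        Fermat.Agent.S42.heckeTLin_apply_eq_smul g hg hℓ hℓM⟩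
    · exact absurd (hMS q hq hqM) hqS
  | algebraMap r =>
    refine ⟨(r : ℂ), intCast_mem R r, ?_⟩
    rw [Algebra.algebraMap_eq_smul_one, LinearMap.smul_apply, Module.End.one_apply,
      Int.cast_smul_eq_zsmul]
  | add x y _ _ hx hy =>
    obtain ⟨c, hc, hxc⟩ := hx
    obtain ⟨d, hd, hyd⟩ := hy
    exact ⟨c + d, R.add_mem hc hd, by rw [LinearMap.add_apply, hxc, hyd, add_smul]⟩
  | mul x y _ _ hx hy =>
    obtain ⟨c, hc, hxc⟩ := hx
    obtain ⟨d, hd, hyd⟩ := hy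
    exact ⟨c * d, R.mul_mem hc hd, by
      rw [Module.End.mul_apply, hyd, map_smul, hxc, smul_smul, mul_comm]⟩

/-- **CHI**: the eigencharacter. -/
theorem s58g_exists_chig (g : CuspForm (Gamma0 M) 2) (hg : g.IsNormalizedEigenform)
    (S : Finset ℕ) (hMS : ∀ q : ℕ, q.Prime → q ∣ M → q ∈ S) (R : Subring ℂ)
    (hR : ∀ ℓ : ℕ, ℓ.Prime → ¬ ℓ ∣ M → ℓ ∉ (↑S : Set ℕ) → qCoeff ⇑g ℓ ∈ R) :
    ∃ chig : CuspForm.heckeAlgebra M 2 (↑S : Set ℕ) →+* ℂ,
      (∀ (ℓ : ℕ) (hℓ : ℓ.Prime) (hℓM : ¬ ℓ ∣ M) (hℓS : ℓ ∉ (↑S : Set ℕ)),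
        chig (CuspForm.heckeAlgebra.T hℓ hℓM hℓS) = qCoeff ⇑g ℓ) ∧
      ∀ x ∈ chig.range, x ∈ R := by
  have hg0 : g ≠ 0 := Fermat.Agent.S42.normalizedEigenform_ne_zero g hg
  have hMS' : ∀ q : ℕ, q.Prime → q ∣ M → q ∈ (↑S : Set ℕ) := fun q hq hqM =>
    Finset.mem_coe.mpr (hMS q hq hqM)
  have key := s58g_eigen g hg (↑S : Set ℕ) hMS' R hR
  have hex : ∀ s ∈ CuspForm.heckeAlgebra M 2 (↑S : Set ℕ), ∃ c : ℂ, s g = c • g :=
    fun s hs => (key s hs).imp fun c hc => hc.2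
  refine ⟨Fermat.Agent.PET.eigenChar _ g hg0 hex, ?_, ?_⟩
  · intro ℓ hℓ hℓM hℓS
    have h1 := Fermat.Agent.PET.eigenChar_spec _ g hg0 hex (CuspForm.heckeAlgebra.T hℓ hℓM hℓS)
    rw [CuspForm.heckeAlgebra.coe_T, Fermat.Agent.S42.heckeTLin_apply_eq_smul g hg hℓ hℓM] at h1
    exact (smul_left_injective ℂ hg0 h1).symm
  · rintro x ⟨s, rfl⟩
    obtain ⟨c, hc, hsc⟩ := key s.1 s.2
    have h1 := Fermat.Agent.PET.eigenChar_spec _ g hg0 hex s
    rw [hsc] at h1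
    rw [← smul_left_injective ℂ hg0 h1]
    exact hc

/-- a ring homomorphism from a subring of `ℂ` sends integers to integers -/
theorem s58g_iota_int {O' : Type*} [Ring O'] (R : Subring ℂ) (iota : R →+* O') (x : R) (n : ℤ)
    (hx : (x : ℂ) = (n : ℂ)) : iota x = (n : O') := by
  have : x = ((n : ℤ) : R) := Subtype.ext (by rw [hx]; simp)
  rw [this, map_intCast]

end Fermat.Agent.S58
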