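import Fermat.Agent.S49.QExp
import Fermat.Prelude.Def_CuspForm_Newforms
import Fermat.Prelude.Sol.S_ModularForm_heckeT_slash_eq_self_of_mem_Gamma0
import Fermat.Prelude.Sol.S_UpperHalfPlane_qCoeff_heckeT
import Fermat.Prelude.Sol.S_CuspFormClass_isZeroAt_heckeT

/-!
# S58 / EC package, brick STAB (helper46): stabilisation of eigenforms

`stab_exists`: for `M ∣ C`, `C ≠ 0`, a normalised eigenform `g` of weight 2 and level `Γ0(M)` (in
the prelude's sense `CuspForm.IsNormalizedEigenform`) gives a normalised eigenform `h` of level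
`Γ0(C)` with `a_n(h) = a_n(g)` for all `n` prime to `C`.  Consequences:
`isModularModelOfLevel_of_dvd`, `goodEigensystemOccursAt_of_dvd`.

Construction: for a prime `r ∣ C`, `r ∤ M` put `g' = g − β · V_r g` (`β² − a_r β + r = 0`), a form
of level `M r` whose coefficients satisfy the relations of level `M r`
(`StabSeq.stabilize`); iterate; finally include into level `C` (`stabIncl`).
Tools: `stabIncl` (level inclusion), `stabV` (`f ↦ f ∣ diag(r,1)`, level `M → M r`, any weight),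
`qCoeff_stabV`.
-/

set_option autoImplicit false

noncomputable section

namespace Fermat.Agent.S58

open CongruenceSubgroup ModularForm ModularFormClass UpperHalfPlane
open scoped MatrixGroups ModularForm Manifold

/-! ### the arithmetic of stabilised coefficient sequences -/

/-- `a` satisfies the relations of a normalised eigenform of level `N` -/
structure StabSeq (N : ℕ) (a : ℕ → ℂ) : Prop where
  one : a 1 = 1
  mul : ∀ m n : ℕ, m.Coprime n → a (m * n) = a m * a n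
  good : ∀ p r : ℕ, p.Prime → ¬ p ∣ N →
    a (p ^ (r + 2)) = a p * a (p ^ (r + 1)) - p * a (p ^ r)
  bad : ∀ p r : ℕ, p.Prime → p ∣ N → a (p ^ (r + 2)) = a p * a (p ^ (r + 1))

theorem StabSeq.of_same_primes {M C : ℕ} {a : ℕ → ℂ} (ha : StabSeq M a)
    (h : ∀ p : ℕ, p.Prime → (p ∣ M ↔ p ∣ C)) : StabSeq C a where
  one := ha.one
  mul := ha.mul
  good := fun p r hp hpC => ha.good p r hp (fun hpM => hpC ((h p hp).mp hpM))
  bad := fun p r hp hpC => ha.bad p r hp ((h p hp).mpr hpC)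

/-- the `r`-stabilised sequence -/
def stabSeq (a : ℕ → ℂ) (r : ℕ) (β : ℂ) (n : ℕ) : ℂ :=
  a n - β * (if r ∣ n then a (n / r) else 0)

theorem stabSeq_of_not_dvd (a : ℕ → ℂ) {r : ℕ} (β : ℂ) {n : ℕ} (h : ¬ r ∣ n) :
    stabSeq a r β n = a n := by
  simp [stabSeq, h]

theorem stabSeq_of_dvd (a : ℕ → ℂ) {r : ℕ} (β : ℂ) {n : ℕ} (h : r ∣ n) :
    stabSeq a r β n = a n - β * a (n / r) := by
  simp [stabSeq, h]

theorem stab_not_dvd_prime_pow {p r : ℕ} (hp : p.Prime) (hr : r.Prime) (hpr : p ≠ r) (j : ℕ) :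
    ¬ r ∣ p ^ j := by
  intro h
  have := hr.dvd_of_dvd_pow h
  exact hpr ((Nat.prime_dvd_prime_iff_eq hr hp).mp this).symm

theorem StabSeq.stabilize {M : ℕ} {a : ℕ → ℂ} (ha : StabSeq M a) {r : ℕ} (hr : r.Prime)
    (hrM : ¬ r ∣ M) (β : ℂ) (hβ : β ^ 2 - a r * β + r = 0) :
    StabSeq (M * r) (stabSeq a r β) := by
  have hr1 : ¬ r ∣ 1 := hr.one_lt.ne' ∘ Nat.dvd_one.mp
  have hpow : ∀ j : ℕ, stabSeq a r β (r ^ (j + 1)) = a (r ^ (j + 1)) - β * a (r ^ j) := by
    intro j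
    rw [stabSeq_of_dvd a β (dvd_pow_self r (Nat.succ_ne_zero j)), pow_succ,
      Nat.mul_div_cancel _ hr.pos]
  have hstep : ∀ j : ℕ, stabSeq a r β (r ^ (j + 2))
      = (a r - β) * stabSeq a r β (r ^ (j + 1)) := by
    intro j
    rw [hpow (j + 1), hpow j, ha.good r j hr hrM]
    linear_combination (-(a (r ^ j))) * hβ
  have hone : stabSeq a r β r = a r - β := by
    have := hpow 0
    rw [zero_add, pow_one, pow_zero, ha.one, mul_one] at this
    exact this
  refine ⟨?_, ?_, ?_, ?_⟩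
  · rw [stabSeq_of_not_dvd a β hr1, ha.one]
  · intro m n hmn
    by_cases hm : r ∣ m
    · have hn : ¬ r ∣ n := fun hn => hr1 (hmn ▸ Nat.dvd_gcd hm hn)
      obtain ⟨m', rfl⟩ := hm
      have hm'n : m'.Coprime n := Nat.Coprime.coprime_mul_left hmn
      have e1 : r * m' * n / r = m' * n := by
        rw [Nat.mul_assoc, Nat.mul_div_cancel_left _ hr.pos]
      have e2 : r * m' / r = m' := Nat.mul_div_cancel_left _ hr.pos
      rw [stabSeq_of_dvd a β (Dvd.dvd.mul_right (dvd_mul_right r m') n),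
        stabSeq_of_dvd a β (dvd_mul_right r m'), stabSeq_of_not_dvd a β hn, e1, e2,
        ha.mul _ _ hmn, ha.mul _ _ hm'n]
      ring
    · by_cases hn : r ∣ n
      · obtain ⟨n', rfl⟩ := hn
        have hmn' : m.Coprime n' := Nat.Coprime.coprime_mul_left_right hmn
        have e1 : m * (r * n') / r = m * n' := by
          rw [Nat.mul_left_comm, Nat.mul_div_cancel_left _ hr.pos]
        have e2 : r * n' / r = n' := Nat.mul_div_cancel_left _ hr.pos
        rw [stabSeq_of_dvd a β (Dvd.dvd.mul_left (dvd_mul_right r n') m),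
          stabSeq_of_dvd a β (dvd_mul_right r n'), stabSeq_of_not_dvd a β hm, e1, e2,
          ha.mul _ _ hmn, ha.mul _ _ hmn']
        ring
      · have hmn' : ¬ r ∣ m * n := fun h =>
          ((Nat.Prime.dvd_mul hr).mp h).elim hm hn
        rw [stabSeq_of_not_dvd a β hmn', stabSeq_of_not_dvd a β hm,
          stabSeq_of_not_dvd a β hn, ha.mul _ _ hmn]
  · intro p j hp hpN
    have hpr : p ≠ r := fun h => hpN (h ▸ dvd_mul_left r M)
    have hpM : ¬ p ∣ M := fun h => hpN (h.mul_right r)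
    rw [stabSeq_of_not_dvd a β (stab_not_dvd_prime_pow hp hr hpr _),
      stabSeq_of_not_dvd a β (stab_not_dvd_prime_pow hp hr hpr _),
      stabSeq_of_not_dvd a β (stab_not_dvd_prime_pow hp hr hpr _),
      stabSeq_of_not_dvd a β (fun h => hpr ((Nat.prime_dvd_prime_iff_eq hr hp).mp h).symm)]
    exact ha.good p j hp hpM
  · intro p j hp hpN
    by_cases hpr : p = r
    · subst hpr
      rw [hstep, hone]
    · have hpM : p ∣ M := by
        rcases (Nat.Prime.dvd_mul hp).mp hpN with h | h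
        · exact h
        · exact absurd ((Nat.prime_dvd_prime_iff_eq hp hr).mp h) hpr
      rw [stabSeq_of_not_dvd a β (stab_not_dvd_prime_pow hp hr hpr _),
        stabSeq_of_not_dvd a β (stab_not_dvd_prime_pow hp hr hpr _),
        stabSeq_of_not_dvd a β (fun h => hpr ((Nat.prime_dvd_prime_iff_eq hr hp).mp h).symm)]
      exact ha.bad p j hp hpM


/-! ### level inclusion and the operator `V_r` -/


/-- `Γ0(C) ≤ Γ0(M)` for `M ∣ C`, inside `GL(2,ℝ)`. -/
theorem stab_le {M C : ℕ} (h : M ∣ C) :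
    (Gamma0 C : Subgroup (GL (Fin 2) ℝ)) ≤ (Gamma0 M : Subgroup (GL (Fin 2) ℝ)) := by
  rintro _ ⟨g, hg, rfl⟩
  refine ⟨g, ?_, rfl⟩
  rw [SetLike.mem_coe, Gamma0_mem] at hg ⊢
  rw [ZMod.intCast_zmod_eq_zero_iff_dvd] at hg ⊢
  exact (Int.natCast_dvd_natCast.mpr h).trans hg

/-- level inclusion `S_k(Γ0(M)) → S_k(Γ0(C))`, `M ∣ C` -/
def stabIncl {M C : ℕ} (h : M ∣ C) (k : ℤ) (f : CuspForm (Gamma0 M) k) :
    CuspForm (Gamma0 C) k where
  toFun := f
  slash_action_eq' := fun γ hγ => SlashInvariantFormClass.slash_action_eq f γ (stab_le h hγ)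
  holo' := CuspFormClass.holo f
  zero_at_cusps' := fun hc => CuspFormClass.zero_at_cusps f (hc.mono (stab_le h))

@[simp] theorem coe_stabIncl {M C : ℕ} (h : M ∣ C) (k : ℤ) (f : CuspForm (Gamma0 M) k) :
    (⇑(stabIncl h k f) : ℍ → ℂ) = ⇑f := rfl

theorem qCoeff_stabIncl {M C : ℕ} (h : M ∣ C) (k : ℤ) (f : CuspForm (Gamma0 M) k) (n : ℕ) :
    qCoeff ⇑(stabIncl h k f) n = qCoeff ⇑f n := rfl

/-- slash invariance of `f ∣ diag(r,1)` under `Γ0(M r)` -/
theorem stab_slash_diag {M : ℕ} (r : ℕ) (hr : r ≠ 0) (k : ℤ) {f : ℍ → ℂ}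
    (hf : ∀ γ ∈ (Gamma0 M : Subgroup (GL (Fin 2) ℝ)), f ∣[k] γ = f)
    (γ : GL (Fin 2) ℝ) (hγ : γ ∈ (Gamma0 (M * r) : Subgroup (GL (Fin 2) ℝ))) :
    (f ∣[k] heckeDiagMatrix r) ∣[k] γ = f ∣[k] heckeDiagMatrix r := by
  obtain ⟨g, hg, rfl⟩ := hγ
  rw [SetLike.mem_coe, Gamma0_mem, ZMod.intCast_zmod_eq_zero_iff_dvd] at hg
  obtain ⟨t, ht⟩ := hg
  obtain ⟨g', hg', hmul⟩ :=
    P2MW.S_ModularForm_heckeT_slash_eq_self_of_mem_Gamma0.ModularForm.HeckeSlashInvariance.heckeDiagMatrix_mul_of_eq'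
      hr g (M * t) (by rw [ht]; push_cast; ring)
  have hg'M : g' ∈ Gamma0 M := by
    rw [Gamma0_mem, hg']
    push_cast
    simp
  rw [← SlashAction.slash_mul, hmul, SlashAction.slash_mul,
    hf _ (Subgroup.mem_map_of_mem (Matrix.SpecialLinearGroup.mapGL ℝ) hg'M)]

/-- `heckeDiagMatrix r` is rational -/
theorem stab_exists_diag_eq_map (r : ℕ) :
    ∃ g : GL (Fin 2) ℚ, heckeDiagMatrix r = Matrix.GeneralLinearGroup.map (Rat.castHom ℝ) g :=
  P2MW.S_CuspFormClass_isZeroAt_heckeT.ModularForm.S06W2.exists_heckeDiagMatrix_eq_map r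

/-- the operator `f ↦ f ∣ diag(r,1)` (`= r^{k-1} f(r z)`) from level `M` to level `M r` -/
def stabV {M : ℕ} [NeZero M] (r : ℕ) (hr : r ≠ 0) (k : ℤ) (f : CuspForm (Gamma0 M) k) :
    CuspForm (Gamma0 (M * r)) k where
  toFun := ⇑f ∣[k] heckeDiagMatrix r
  slash_action_eq' := fun γ hγ => stab_slash_diag r hr k
    (fun γ hγ => SlashInvariantFormClass.slash_action_eq f γ hγ) γ hγ
  holo' := (CuspFormClass.holo f).slash k _
  zero_at_cusps' := fun hc => by
    obtain ⟨g, hg⟩ := stab_exists_diag_eq_map r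
    rw [hg]
    exact P2MW.S_CuspFormClass_isZeroAt_heckeT.ModularForm.S06W2.isZeroAt_slash_ratCast f g
      (hc.mono (stab_le (dvd_mul_right M r)))

@[simp] theorem coe_stabV {M : ℕ} [NeZero M] (r : ℕ) (hr : r ≠ 0) (k : ℤ) (f : CuspForm (Gamma0 M) k) :
    (⇑(stabV r hr k f) : ℍ → ℂ) = ⇑f ∣[k] heckeDiagMatrix r := rfl

theorem qCoeff_stabV {M : ℕ} [NeZero M] (r : ℕ) (hr : r ≠ 0) (k : ℤ) (f : CuspForm (Gamma0 M) k) (n : ℕ) :
    qCoeff ⇑(stabV r hr k f) n
      = if r ∣ n then (r : ℂ) ^ (k - 1) * qCoeff ⇑f (n / r) else 0 := by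
  symm
  have hΓ := Fermat.Agent.S49.one_mem_strictPeriods M
  have : Fact (IsCusp OnePoint.infty
      (Subgroup.map (Matrix.SpecialLinearGroup.mapGL ℝ) (Gamma0 M))) :=
    ⟨Subgroup.isCusp_of_mem_strictPeriods one_pos hΓ⟩
  refine ModularFormClass.qExpansion_coeff_unique
    (c := fun n => if r ∣ n then (r : ℂ) ^ (k - 1) * qCoeff ⇑f (n / r) else 0)
    one_pos (Fermat.Agent.S49.one_mem_strictPeriods (M * r)) (f := stabV r hr k f)
    (fun τ => ?_) n
  have h := P2MW.S_UpperHalfPlane_qCoeff_heckeT.M4cP1W2.hasSum_diag hr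
    (SlashInvariantFormClass.periodic_comp_ofComplex f hΓ) (ModularFormClass.holo f)
    (ModularFormClass.bdd_at_infty f) k τ
  have hval : (stabV r hr k f) τ = (r : ℂ) ^ (k - 1) * f (heckeDiagMatrix r • τ) := by
    show (⇑f ∣[k] heckeDiagMatrix r) τ = _
    rw [slash_heckeDiagMatrix_apply k hr]
  rw [hval]
  convert h using 1
  funext m
  split_ifs <;> simp


/-! ### the main theorem -/

theorem isNormalizedEigenform_iff_stabSeq {N : ℕ} (f : CuspForm (Gamma0 N) 2) :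
    f.IsNormalizedEigenform ↔ StabSeq N (fun n => qCoeff ⇑f n) :=
  ⟨fun h => ⟨h.1, h.2, h.3, h.4⟩, fun h => ⟨h.1, h.2, h.3, h.4⟩⟩

/-- one stabilisation step -/
theorem stab_step {M : ℕ} [NeZero M] (g : CuspForm (Gamma0 M) 2)
    (hg : g.IsNormalizedEigenform) {r : ℕ} (hr : r.Prime) (hrM : ¬ r ∣ M) :
    ∃ g' : CuspForm (Gamma0 (M * r)) 2, g'.IsNormalizedEigenform ∧
      ∀ n : ℕ, ¬ r ∣ n → qCoeff ⇑g' n = qCoeff ⇑g n := by
  obtain ⟨β, hβ⟩ : ∃ β : ℂ, β ^ 2 - qCoeff ⇑g r * β + r = 0 := by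
    have hdeg : (Polynomial.X ^ 2 - Polynomial.C (qCoeff ⇑g r) * Polynomial.X
        + Polynomial.C (r : ℂ) : Polynomial ℂ).degree ≠ 0 := by
      have : (Polynomial.X ^ 2 - Polynomial.C (qCoeff ⇑g r) * Polynomial.X
          + Polynomial.C (r : ℂ) : Polynomial ℂ).degree = 2 := by
        compute_degree!
      rw [this]
      norm_num
    obtain ⟨β, hβ⟩ := IsAlgClosed.exists_root _ hdeg
    refine ⟨β, ?_⟩
    simpa using hβ
  have hr0 : (r : ℂ) ≠ 0 := by exact_mod_cast hr.ne_zero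
  obtain ⟨g', hg'⟩ : ∃ g' : CuspForm (Gamma0 (M * r)) 2,
      g' = stabIncl (dvd_mul_right M r) 2 g + (-(β / r)) • stabV r hr.ne_zero 2 g := ⟨_, rfl⟩
  have hq : ∀ n, qCoeff ⇑g' n = stabSeq (fun n => qCoeff ⇑g n) r β n := by
    intro n
    rw [hg', Fermat.Agent.S49.qCoeff_add, Fermat.Agent.S49.qCoeff_smul, qCoeff_stabIncl,
      qCoeff_stabV, stabSeq]
    split_ifs
    · have : ((2 : ℤ) - 1) = 1 := by norm_num
      rw [this, zpow_one]
      field_simp
      ring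
    · simp
  refine ⟨g', ?_, fun n hn => by rw [hq, stabSeq_of_not_dvd _ _ hn]⟩
  rw [isNormalizedEigenform_iff_stabSeq]
  have h1 := ((isNormalizedEigenform_iff_stabSeq g).mp hg).stabilize hr hrM β hβ
  have h2 : (fun n => qCoeff ⇑g' n) = stabSeq (fun n => qCoeff ⇑g n) r β := funext hq
  rw [h2]
  exact h1

theorem stab_exists_aux {C : ℕ} (hC : C ≠ 0) : ∀ (s : ℕ) {M : ℕ} (_ : M ∣ C)
    (_ : (C.primeFactors \ M.primeFactors).card = s) (g : CuspForm (Gamma0 M) 2),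
    g.IsNormalizedEigenform →
    ∃ h : CuspForm (Gamma0 C) 2, h.IsNormalizedEigenform ∧
      ∀ n : ℕ, n.Coprime C → qCoeff ⇑h n = qCoeff ⇑g n := by
  intro s
  induction s with
  | zero =>
    intro M hMC hs g hg
    have hM0 : M ≠ 0 := fun h => hC (by rw [h] at hMC; exact Nat.eq_zero_of_zero_dvd hMC)
    have hsub : C.primeFactors ⊆ M.primeFactors := by
      rw [← Finset.sdiff_eq_empty_iff_subset]
      exact Finset.card_eq_zero.mp hs
    have hsame : ∀ p : ℕ, p.Prime → (p ∣ M ↔ p ∣ C) := by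
      intro p hp
      constructor
      · exact fun h => h.trans hMC
      · intro h
        have : p ∈ C.primeFactors := Nat.mem_primeFactors.mpr ⟨hp, h, hC⟩
        exact (Nat.mem_primeFactors.mp (hsub this)).2.1
    refine ⟨stabIncl hMC 2 g, ?_, fun n _ => rfl⟩
    rw [isNormalizedEigenform_iff_stabSeq]
    exact ((isNormalizedEigenform_iff_stabSeq g).mp hg).of_same_primes hsame
  | succ s ih =>
    intro M hMC hs g hg
    have hM0 : M ≠ 0 := fun h => hC (by rw [h] at hMC; exact Nat.eq_zero_of_zero_dvd hMC)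
    have : NeZero M := ⟨hM0⟩
    obtain ⟨r, hr⟩ : ∃ r, r ∈ C.primeFactors \ M.primeFactors :=
      Finset.card_pos.mp (by omega)
    have hr' := Finset.mem_sdiff.mp hr
    have hrp : r.Prime := (Nat.mem_primeFactors.mp hr'.1).1
    have hrC : r ∣ C := (Nat.mem_primeFactors.mp hr'.1).2.1
    have hrM : ¬ r ∣ M := fun h => hr'.2 (Nat.mem_primeFactors.mpr ⟨hrp, h, hM0⟩)
    obtain ⟨g', hg', hq⟩ := stab_step g hg hrp hrM
    have hcop : M.Coprime r := (Nat.Coprime.symm ((Nat.Prime.coprime_iff_not_dvd hrp).mpr hrM))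
    have hMrC : M * r ∣ C := Nat.Coprime.mul_dvd_of_dvd_of_dvd hcop hMC hrC
    have hcard : (C.primeFactors \ (M * r).primeFactors).card = s := by
      have e : C.primeFactors \ (M * r).primeFactors
          = (C.primeFactors \ M.primeFactors).erase r := by
        rw [Nat.primeFactors_mul hM0 hrp.ne_zero, hrp.primeFactors]
        ext x
        simp only [Finset.mem_sdiff, Finset.mem_union, Finset.mem_singleton, Finset.mem_erase]
        tauto
      rw [e, Finset.card_erase_of_mem hr, hs]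
      rfl
    obtain ⟨h, hh, hhq⟩ := ih hMrC hcard g' hg'
    refine ⟨h, hh, fun n hn => ?_⟩
    have hrn : ¬ r ∣ n := by
      intro hrn
      have := Nat.dvd_gcd hrn hrC
      rw [hn] at this
      exact hrp.one_lt.ne' (Nat.dvd_one.mp this)
    rw [hhq n hn, hq n hrn]

/-- **STAB**: stabilisation of a normalised eigenform from level `M` to level `C`, `M ∣ C`. -/
theorem stab_exists {M C : ℕ} (hC : C ≠ 0) (hMC : M ∣ C) (g : CuspForm (Gamma0 M) 2)
    (hg : g.IsNormalizedEigenform) :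
    ∃ h : CuspForm (Gamma0 C) 2, h.IsNormalizedEigenform ∧
      ∀ n : ℕ, n.Coprime C → qCoeff ⇑h n = qCoeff ⇑g n :=
  stab_exists_aux hC _ hMC rfl g hg

/-- **STAB**, prime form. -/
theorem stab_exists_prime {M C : ℕ} (hC : C ≠ 0) (hMC : M ∣ C) (g : CuspForm (Gamma0 M) 2)
    (hg : g.IsNormalizedEigenform) :
    ∃ h : CuspForm (Gamma0 C) 2, h.IsNormalizedEigenform ∧
      ∀ ℓ : ℕ, ℓ.Prime → ¬ ℓ ∣ C → qCoeff ⇑h ℓ = qCoeff ⇑g ℓ := by
  obtain ⟨h, hh, hq⟩ := stab_exists hC hMC g hg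
  exact ⟨h, hh, fun ℓ hℓ hℓC => hq ℓ ((Nat.Prime.coprime_iff_not_dvd hℓ).mpr hℓC)⟩

/-- modularity of level `M` implies modularity of every nonzero multiple `C` of `M` -/
theorem isModularModelOfLevel_of_dvd (W : WeierstrassCurve ℤ) {M C : ℕ} (hC : C ≠ 0)
    (hMC : M ∣ C) (h : W.IsModularModelOfLevel M) : W.IsModularModelOfLevel C := by
  obtain ⟨f, hf, hfq⟩ := h
  obtain ⟨h, hh, hq⟩ := stab_exists_prime hC hMC f hf
  refine ⟨h, hh, fun p hp hgood hpC => ?_⟩
  rw [hq p hp hpC]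
  exact hfq p hp hgood (fun hpM => hpC (hpM.trans hMC))

/-- a system of eigenvalues occurring at level `M` occurs at every nonzero multiple of `M` -/
theorem goodEigensystemOccursAt_of_dvd {N : ℕ} (f : CuspForm (Gamma0 N) 2) {M C : ℕ}
    (hC : C ≠ 0) (hMC : M ∣ C) (hCN : ∀ ℓ : ℕ, ℓ.Prime → ℓ ∣ C → ℓ ∣ N)
    (h : CuspForm.GoodEigensystemOccursAt f M) : CuspForm.GoodEigensystemOccursAt f C := by
  obtain ⟨g, hg, hgq⟩ := h
  obtain ⟨h, hh, hq⟩ := stab_exists_prime hC hMC g hg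
  refine ⟨h, hh, fun ℓ hℓ hℓN => ?_⟩
  rw [hq ℓ hℓ (fun hℓC => hℓN (hCN ℓ hℓ hℓC))]
  exact hgq ℓ hℓ hℓN

end Fermat.Agent.S58
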