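import Fermat.Prelude.Def_CuspForm_Newforms

/-!
# S58 brick NF (helper46): every eigensystem comes from a newform (by minimality)

`nf_exists_newform`: a normalised eigenform `f` of level `N ≠ 0` has the same `a_ℓ` (`ℓ ∤ N` prime)
as a newform `g` (prelude's `CuspForm.IsNewform`) of some level `M ∣ N`.
-/

set_option autoImplicit false

namespace Fermat.Agent.S58

open CongruenceSubgroup ModularFormClass

theorem nf_exists_newform {N : ℕ} (hN : N ≠ 0) (f : CuspForm (Gamma0 N) 2)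
    (hf : f.IsNormalizedEigenform) :
    ∃ (M : ℕ) (_ : M ∣ N) (g : CuspForm (Gamma0 M) 2), g.IsNewform ∧
      ∀ ℓ : ℕ, ℓ.Prime → ¬ ℓ ∣ N → qCoeff g ℓ = qCoeff f ℓ := by
  classical
  have hex : ∃ M : ℕ, M ∣ N ∧ CuspForm.GoodEigensystemOccursAt f M :=
    ⟨N, dvd_rfl, CuspForm.GoodEigensystemOccursAt.refl hf⟩
  obtain ⟨hMN, g, hg, hgq⟩ := Nat.find_spec hex
  have hmin := fun m (hm : m < Nat.find hex) => Nat.find_min hex hm
  refine ⟨Nat.find hex, hMN, g, ⟨hg, fun M' hM' hne hocc => ?_⟩, hgq⟩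
  have hM0 : Nat.find hex ≠ 0 := fun h => hN (Nat.eq_zero_of_zero_dvd (h ▸ hMN))
  have hlt : M' < Nat.find hex :=
    lt_of_le_of_ne (Nat.le_of_dvd (Nat.pos_of_ne_zero hM0) hM') hne
  obtain ⟨g', hg', hg'q⟩ := hocc
  exact hmin M' hlt ⟨hM'.trans hMN, g', hg', fun ℓ hℓ hℓN => by
    rw [hg'q ℓ hℓ (fun h => hℓN (h.trans hMN)), hgq ℓ hℓ hℓN]⟩

end Fermat.Agent.S58
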