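import Mathlib
import Fermat.Agent.EC.Cmp
import Fermat.Agent.EC.Bn2
import Fermat.Agent.EC.TateResOdd
import Fermat.Agent.RED.UnipTwoTate

/-!
# S58 GLUE, brick CMP2 (helper66): comparison with the Tate module across two rings

* `s58g_charpoly_map_of_frobenius` : two-ring form of CMP (`EC.charpoly_eq_of_frobenius`):
  `ρ₁` over `O₁`, `ρ₂` over `O₂`, `φ : O₁ →+* O₂` local; if `charpoly ρ₂(Frob) = φ(charpoly ρ₁(Frob))`
  outside a finite set of primes then the same holds on all of `G_ℚ`.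
* `s58g_cmp_tate` : a representation over `O'' ⊇ ℤ_lam` with Frobenius polynomials
  `X² − a_ℓ(W) X + ℓ` outside a finite set has the characteristic polynomials of `T_lam(W)`.
* `s58g_trace_of_map_charpoly` : the trace of Frobenius at a good prime `ℓ ≠ lam` (`ℓ = 2` allowed)
  recovered from the quadratic relation once the constant term is known to be `ℓ`.
* `s58g_hres`, `s58g_unipotent_of_charpoly` : residual absolute irreducibility/oddness and
  unipotence on inertia transfer along equality of characteristic polynomials.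
-/

set_option autoImplicit false

namespace Fermat.Agent.S58

open Polynomial Fermat.Agent.EC

local notation "Γℚ" => (AlgebraicClosure ℚ ≃ₐ[ℚ] AlgebraicClosure ℚ)

section Mat

variable {R : Type*} [CommRing R]

/-- entrywise congruent matrices have congruent characteristic polynomials -/
theorem s58g_charpoly_map_mk_eq {n : Type*} [Fintype n] [DecidableEq n] (I : Ideal R)
    (P Q : Matrix n n R) (h : ∀ i j, P i j - Q i j ∈ I) :
    P.charpoly.map (Ideal.Quotient.mk I) = Q.charpoly.map (Ideal.Quotient.mk I) := by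
  rw [← Matrix.charpoly_map, ← Matrix.charpoly_map]
  congr 1
  ext i j
  simp only [Matrix.map_apply]
  exact (Ideal.Quotient.eq).mpr (h i j)

end Mat

section TwoRing

variable {O₁ O₂ : Type} [CommRing O₁] [IsLocalRing O₁] [CommRing O₂] [IsLocalRing O₂]

theorem s58g_map_mem_maximalIdeal_pow (φ : O₁ →+* O₂) [IsLocalHom φ] (n : ℕ) {x : O₁}
    (hx : x ∈ IsLocalRing.maximalIdeal O₁ ^ n) : φ x ∈ IsLocalRing.maximalIdeal O₂ ^ n := by
  have h1 : Ideal.map φ (IsLocalRing.maximalIdeal O₁) ≤ IsLocalRing.maximalIdeal O₂ := by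
    rw [Ideal.map_le_iff_le_comap]
    intro y hy
    rw [Ideal.mem_comap, IsLocalRing.mem_maximalIdeal, mem_nonunits_iff]
    intro hu
    exact (IsLocalRing.mem_maximalIdeal _).1 hy (isUnit_of_map_unit φ y hu)
  have h2 : φ x ∈ Ideal.map φ (IsLocalRing.maximalIdeal O₁ ^ n) := Ideal.mem_map_of_mem φ hx
  rw [Ideal.map_pow] at h2
  exact Ideal.pow_right_mono h1 n h2

/-- **CMP, two-ring form.** -/
theorem s58g_charpoly_map_of_frobenius (φ : O₁ →+* O₂) [IsLocalHom φ]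
    (hsep : ∀ x : O₂, (∀ n : ℕ, x ∈ IsLocalRing.maximalIdeal O₂ ^ n) → x = 0)
    (ρ₁ : GaloisRepAdic O₁) (ρ₂ : GaloisRepAdic O₂) (S : Finset ℕ)
    (h : ∀ ℓ : ℕ, ℓ.Prime → ℓ ∉ S →
      ∀ A : ValuationSubring (AlgebraicClosure ℚ), A.LiesOverPrime ℓ →
        ∀ τ : Γℚ, A.IsFrobeniusAt τ ℓ →
          LinearMap.charpoly (ρ₂.ρ τ) = (LinearMap.charpoly (ρ₁.ρ τ)).map φ)
    (σ : Γℚ) : LinearMap.charpoly (ρ₂.ρ σ) = (LinearMap.charpoly (ρ₁.ρ σ)).map φ := by
  rw [← cmpMat_charpoly, ← cmpMat_charpoly, ← Matrix.charpoly_map]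
  ext k
  rw [← sub_eq_zero]
  apply hsep
  intro n
  set I := IsLocalRing.maximalIdeal O₂ ^ n with hI
  obtain ⟨L₁, hL₁, h₁⟩ := ρ₁.isAdicContinuous n
  obtain ⟨L₂, hL₂, h₂⟩ := ρ₂.isAdicContinuous n
  obtain ⟨F, hFfin, hFgal, hF₁, hF₂⟩ := cmp_exists_galois_hull L₁ L₂
  obtain ⟨ℓ, A, τ, m, hℓ, hℓS, hA, hτ, hτσ⟩ := Fermat.Agent.Cheb.exists_frobenius_pow_eq F S σ
  set g : Γℚ := σ⁻¹ * τ ^ m with hg
  have hgF : ∀ x ∈ F, g x = x := by
    intro x hx
    rw [hg, AlgEquiv.mul_apply, hτσ x hx]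
    exact σ.symm_apply_apply x
  have hτm : τ ^ m = σ * g := by rw [hg, mul_inv_cancel_left]
  have hg₁ := h₁ g (fun x hx => hgF x (hF₁ hx))
  have hg₂ := h₂ g (fun x hx => hgF x (hF₂ hx))
  -- `ρ₂`
  have e₂ : (cmpMat ρ₂ σ).charpoly.map (Ideal.Quotient.mk I)
      = ((cmpMat ρ₂ τ) ^ m).charpoly.map (Ideal.Quotient.mk I) := by
    rw [← cmpMat_pow, hτm]
    refine s58g_charpoly_map_mk_eq I _ _ fun i j => ?_
    have := cmpMat_congr ρ₂ I σ g hg₂ i j
    rw [← neg_sub]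
    exact I.neg_mem this
  -- `ρ₁`
  have e₁ : ((cmpMat ρ₁ σ).map φ).charpoly.map (Ideal.Quotient.mk I)
      = (((cmpMat ρ₁ τ).map φ) ^ m).charpoly.map (Ideal.Quotient.mk I) := by
    have hpow : ((cmpMat ρ₁ τ).map φ) ^ m = (cmpMat ρ₁ (σ * g)).map φ := by
      rw [← hτm, cmpMat_pow]
      exact (map_pow φ.mapMatrix (cmpMat ρ₁ τ) m).symm
    rw [hpow]
    refine s58g_charpoly_map_mk_eq I _ _ fun i j => ?_
    have := cmpMat_congr ρ₁ (IsLocalRing.maximalIdeal O₁ ^ n) σ g hg₁ i j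
    have h3 := s58g_map_mem_maximalIdeal_pow φ n this
    rw [map_sub] at h3
    simp only [Matrix.map_apply]
    rw [← neg_sub]
    exact I.neg_mem h3
  have hτeq : ((cmpMat ρ₁ τ).map φ).charpoly = (cmpMat ρ₂ τ).charpoly := by
    rw [Matrix.charpoly_map, cmpMat_charpoly, cmpMat_charpoly]
    exact (h ℓ hℓ hℓS A hA τ hτ).symm
  have key : (cmpMat ρ₂ σ).charpoly.map (Ideal.Quotient.mk I)
      = ((cmpMat ρ₁ σ).map φ).charpoly.map (Ideal.Quotient.mk I) := by
    rw [e₁, e₂, mat2_charpoly_pow_eq hτeq m]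
  have := congrArg (fun p => p.coeff k) key
  simp only [Polynomial.coeff_map] at this
  exact (Ideal.Quotient.eq).mp this

/-- separatedness of a Noetherian local ring (Krull) -/
theorem s58g_sep_of_noetherian [IsNoetherianRing O₂] (x : O₂)
    (hx : ∀ n : ℕ, x ∈ IsLocalRing.maximalIdeal O₂ ^ n) : x = 0 := by
  have hbot := Ideal.iInf_pow_eq_bot_of_isLocalRing (IsLocalRing.maximalIdeal O₂)
    (IsLocalRing.maximalIdeal.isMaximal O₂).ne_top
  have : x ∈ ⨅ n : ℕ, IsLocalRing.maximalIdeal O₂ ^ n := by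
    rw [Ideal.mem_iInf]; exact hx
  rw [hbot] at this
  exact this

/-- unipotence on inertia is a condition on characteristic polynomials -/
theorem s58g_unipotent_of_charpoly (φ : O₁ →+* O₂) (ρ₁ : GaloisRepAdic O₁)
    (ρ₂ : GaloisRepAdic O₂)
    (hcp : ∀ σ, LinearMap.charpoly (ρ₂.ρ σ) = (LinearMap.charpoly (ρ₁.ρ σ)).map φ) {q : ℕ}
    (h : ρ₁.IsUnipotentOnInertiaAt q) : ρ₂.IsUnipotentOnInertiaAt q := by
  intro P hP σ hσ
  rw [hcp σ, h P hP σ hσ]
  simp

end TwoRing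

section Tate

variable (W : WeierstrassCurve ℤ) (hΔ : W.Δ ≠ 0) (lam : ℕ) [hlam : Fact lam.Prime]

/-- the trace of Frobenius at a good prime `ℓ ≠ lam` (`ℓ = 2` allowed), recovered from the
quadratic relation when the characteristic polynomial is `X² − t X + ℓ` -/
theorem s58g_trace_frob_of_charpoly {ℓ : ℕ} (hℓ : ℓ.Prime) (hgood : W.IsGoodPrimeFor ℓ)
    (hne : ℓ ≠ lam) (A : ValuationSubring (AlgebraicClosure ℚ)) (hA : A.LiesOverPrime ℓ)
    (τ : Γℚ) (hτ : A.IsFrobeniusAt τ ℓ) (t : ℤ_[lam])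
    (h : LinearMap.charpoly ((tateRepInt W hΔ lam).ρ τ) = X ^ 2 - C t * X + C (ℓ : ℤ_[lam])) :
    t = ((W.apOfModel ℓ : ℤ) : ℤ_[lam]) := by
  set f := (tateRepInt W hΔ lam).ρ τ with hf
  have hq := tateRepInt_frob_quadratic W hΔ lam hℓ hgood hne A hA τ hτ
  rw [← hf] at hq
  rw [← Int.cast_smul_eq_zsmul ℤ_[lam] (W.apOfModel ℓ), ← Int.cast_smul_eq_zsmul ℤ_[lam] (ℓ : ℤ),
    Int.cast_natCast] at hq
  have hch := LinearMap.aeval_self_charpoly f
  rw [h] at hch
  simp only [map_add, map_sub, map_mul, map_pow, aeval_X, aeval_C] at hch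
  have hch' : f * f - t • f + (ℓ : ℤ_[lam]) • (1 : Module.End ℤ_[lam] (tateRepInt W hΔ lam).V)
      = 0 := by
    rw [← hch, pow_two, Algebra.algebraMap_eq_smul_one, Algebra.algebraMap_eq_smul_one,
      smul_mul_assoc, one_mul]
  have hsub : (t - ((W.apOfModel ℓ : ℤ) : ℤ_[lam])) • f = 0 := by
    have := congrArg₂ (· - ·) hq hch'
    simp only [sub_zero] at this
    rw [sub_smul]
    rw [← this]
    abel
  -- `f` is invertible
  have hinv : f * (tateRepInt W hΔ lam).ρ τ⁻¹ = 1 := by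
    rw [hf, ← map_mul, mul_inv_cancel, map_one]
  have h1 : (t - ((W.apOfModel ℓ : ℤ) : ℤ_[lam])) •
      (1 : Module.End ℤ_[lam] (tateRepInt W hΔ lam).V) = 0 := by
    rw [← hinv, ← smul_mul_assoc, hsub, zero_mul]
  have h2 := congrArg (LinearMap.trace ℤ_[lam] (tateRepInt W hΔ lam).V) h1
  rw [map_smul, LinearMap.trace_one, (tateRepInt W hΔ lam).finrank_eq, map_zero, smul_eq_mul]
    at h2
  have h3 : t - ((W.apOfModel ℓ : ℤ) : ℤ_[lam]) = 0 := by
    rcases mul_eq_zero.mp h2 with h | h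
    · exact h
    · exfalso
      have : ((2 : ℕ) : ℤ_[lam]) = 0 := h
      exact two_ne_zero (Nat.cast_injective this)
  exact sub_eq_zero.mp h3

variable {O'' : Type} [CommRing O''] [IsLocalRing O'']

omit [IsLocalRing O''] in
/-- the same through an injective ring homomorphism `ℤ_lam → O''` -/
theorem s58g_trace_of_map_charpoly (φ : ℤ_[lam] →+* O'') (hφ : Function.Injective φ)
    {ℓ : ℕ} (hℓ : ℓ.Prime) (hgood : W.IsGoodPrimeFor ℓ)
    (hne : ℓ ≠ lam) (A : ValuationSubring (AlgebraicClosure ℚ)) (hA : A.LiesOverPrime ℓ)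
    (τ : Γℚ) (hτ : A.IsFrobeniusAt τ ℓ) (t : O'')
    (h : (LinearMap.charpoly ((tateRepInt W hΔ lam).ρ τ)).map φ = X ^ 2 - C t * X + C (ℓ : O'')) :
    t = ((W.apOfModel ℓ : ℤ) : O'') := by
  have hc : LinearMap.charpoly ((tateRepInt W hΔ lam).ρ τ)
      = X ^ 2 - C (cmpMat (tateRepInt W hΔ lam) τ).trace * X
        + C (cmpMat (tateRepInt W hΔ lam) τ).det := by
    rw [← cmpMat_charpoly, Matrix.charpoly_fin_two]
  rw [hc] at h
  have h0 := congrArg (fun p => p.coeff 0) h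
  have h1 := congrArg (fun p => p.coeff 1) h
  simp [Polynomial.coeff_X, Polynomial.coeff_C, Polynomial.coeff_X_pow] at h0 h1
  have hdet : (cmpMat (tateRepInt W hΔ lam) τ).det = (ℓ : ℤ_[lam]) := by
    apply hφ
    rw [h0, map_natCast]
  rw [hdet] at hc
  have := s58g_trace_frob_of_charpoly W hΔ lam hℓ hgood hne A hA τ hτ _ hc
  rw [← h1, this, map_intCast]

/-- **CMP for the Tate module**: Frobenius polynomials `X² − a_ℓ(W) X + ℓ` outside a finite set
force the characteristic polynomials of `T_lam(W)` everywhere. -/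
theorem s58g_cmp_tate [IsNoetherianRing O''] (φ : ℤ_[lam] →+* O'') [IsLocalHom φ]
    (ρ : GaloisRepAdic O'') (S : Finset ℕ)
    (hS : ∀ ℓ : ℕ, ℓ.Prime → ℓ ∉ S → W.IsGoodPrimeFor ℓ ∧ ℓ ≠ lam)
    (h : ∀ ℓ : ℕ, ℓ.Prime → ℓ ∉ S →
      ∀ A : ValuationSubring (AlgebraicClosure ℚ), A.LiesOverPrime ℓ →
        ∀ τ : Γℚ, A.IsFrobeniusAt τ ℓ →
          LinearMap.charpoly (ρ.ρ τ)
            = X ^ 2 - C ((W.apOfModel ℓ : ℤ) : O'') * X + C (ℓ : O''))
    (σ : Γℚ) :
    LinearMap.charpoly (ρ.ρ σ) = (LinearMap.charpoly ((tateRepInt W hΔ lam).ρ σ)).map φ := by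
  classical
  refine s58g_charpoly_map_of_frobenius φ s58g_sep_of_noetherian (tateRepInt W hΔ lam) ρ
    (insert 2 S) ?_ σ
  intro ℓ hℓ hℓS A hA τ hτ
  have hℓ2 : ℓ ≠ 2 := fun h2 => hℓS (by rw [h2]; exact Finset.mem_insert_self _ _)
  have hℓS' : ℓ ∉ S := fun h' => hℓS (Finset.mem_insert_of_mem h')
  obtain ⟨hgood, hne⟩ := hS ℓ hℓ hℓS'
  rw [h ℓ hℓ hℓS' A hA τ hτ, tateRepInt_charpoly_frob W hΔ lam hℓ hℓ2 hgood hne A hA τ hτ]
  simp

end Tate

section Res

variable (W : WeierstrassCurve ℤ) (hΔ : W.Δ ≠ 0) (p : ℕ) [hp : Fact p.Prime]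
variable {O'' : Type} [CommRing O''] [IsLocalRing O'']

/-- **hres**: a representation with the characteristic polynomials of `T_p(W)` is residually
absolutely irreducible and odd (`p` odd, `W[p]` irreducible). -/
theorem s58g_hres (hp2 : p ≠ 2) (hirr : W.ModRepIsIrreducible p) (φ : ℤ_[p] →+* O'')
    [IsLocalHom φ] (ρ : GaloisRepAdic O'')
    (hcp : ∀ σ, LinearMap.charpoly (ρ.ρ σ)
      = (LinearMap.charpoly ((tateRepInt W hΔ p).ρ σ)).map φ) :
    ρ.residual.IsAbsolutelyIrreducible ∧ ρ.residual.IsOdd :=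
  ⟨bn2_residual_isAbsolutelyIrreducible_of_charpoly_eq φ (tateRepInt W hΔ p) ρ hcp
      (tateResInt_isAbsolutelyIrreducible W hΔ p hp2 hirr),
    bn2_residual_isOdd_of_charpoly_eq φ (tateRepInt W hΔ p) ρ hcp
      (tateResInt_isOdd W hΔ p hirr)⟩

end Res

end Fermat.Agent.S58
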