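import Mathlib
import Fermat.Prelude.Def_FLTPrelim_Modularity

/-!
# S58 GLUE, brick COUNT (helper66): the trivial bound `|a_q(W)| ≤ q`

`a_q(W) = q + 1 − #W(𝔽_q)` and `1 ≤ #W(𝔽_q) ≤ 2q + 1` (the point at infinity; at most two
`y` for every `x`).  Hence `a_q(W) ≠ ±(q + 1)`.  No Hasse bound is needed.
-/

set_option autoImplicit false

namespace Fermat.Agent.S58

open WeierstrassCurve

/-- the trivial upper bound for the number of points of a Weierstrass curve over a finite
field -/
theorem s58g_card_point_le {F : Type*} [Field F] [Finite F] (W : WeierstrassCurve.Affine F) :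
    Nat.card W.Point ≤ 2 * Nat.card F + 1 := by
  classical
  let y₀ : F → F := fun x => if h : ∃ y, W.Equation x y then h.choose else 0
  have hy₀ : ∀ x y, W.Equation x y → W.Equation x (y₀ x) := by
    intro x y hxy
    have h : ∃ y, W.Equation x y := ⟨y, hxy⟩
    simp only [y₀, dif_pos h]
    exact h.choose_spec
  let φ : W.Point → Option (F × Bool) := fun P =>
    match P with
    | .zero => none
    | .some x y _ => some (x, decide (y = y₀ x))
  have hφ : Function.Injective φ := by
    rintro (_ | ⟨x, y, h⟩) (_ | ⟨x', y', h'⟩) hPQ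
    · rfl
    · simp [φ] at hPQ
    · simp [φ] at hPQ
    · simp only [φ, Option.some.injEq, Prod.mk.injEq] at hPQ
      obtain ⟨rfl, hd⟩ := hPQ
      have e0 := hy₀ x y h.1
      have hyy : y = y' := by
        by_cases hy : y = y₀ x
        · have hy' : y' = y₀ x := by
            have : decide (y' = y₀ x) = true := by rw [← hd]; exact decide_eq_true hy
            exact of_decide_eq_true this
          rw [hy, hy']
        · have hy' : ¬ y' = y₀ x := by
            intro hy'
            apply hy
            have : decide (y = y₀ x) = true := by rw [hd]; exact decide_eq_true hy'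
            exact of_decide_eq_true this
          have h1 := (WeierstrassCurve.Affine.Y_eq_of_X_eq h.1 e0 rfl).resolve_left hy
          have h2 := (WeierstrassCurve.Affine.Y_eq_of_X_eq h'.1 e0 rfl).resolve_left hy'
          rw [h1, h2]
      subst hyy
      rfl
  have h1 := Nat.card_le_card_of_injective φ hφ
  have h2 : Nat.card (Option (F × Bool)) = 2 * Nat.card F + 1 := by
    rw [Finite.card_option, Nat.card_prod, Nat.card_eq_fintype_card (α := Bool), Fintype.card_bool,
      mul_comm]
  rw [h2] at h1
  exact h1

/-- the number of points is positive -/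
theorem s58g_card_point_pos {F : Type*} [Field F] [Finite F] (W : WeierstrassCurve.Affine F) :
    0 < Nat.card W.Point :=
  Nat.card_pos

/-- **COUNT**: `−(q + 1) < a_q(W) < q + 1`. -/
theorem s58g_apOfModel_bound (W : WeierstrassCurve ℤ) {q : ℕ} (hq : q.Prime) :
    -((q : ℤ) + 1) < W.apOfModel q ∧ W.apOfModel q < (q : ℤ) + 1 := by
  have : Fact q.Prime := ⟨hq⟩
  have h1 := s58g_card_point_le (W.reductionMod q).toAffine
  have h2 := s58g_card_point_pos (W.reductionMod q).toAffine
  have h3 : Nat.card (ZMod q) = q := Nat.card_zmod q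
  rw [h3] at h1
  have h4 : W.apOfModel q = (q : ℤ) + 1 - (Nat.card (W.reductionMod q).toAffine.Point : ℤ) := by
    show (W.reductionMod q).traceOfFrobenius = _
    unfold WeierstrassCurve.traceOfFrobenius WeierstrassCurve.card
    rw [h3]
  rw [h4]
  constructor <;> omega

/-- `a_q(W) ≠ q + 1` and `a_q(W) ≠ −(q + 1)`. -/
theorem s58g_apOfModel_ne (W : WeierstrassCurve ℤ) {q : ℕ} (hq : q.Prime) :
    W.apOfModel q ≠ (q : ℤ) + 1 ∧ W.apOfModel q ≠ -((q : ℤ) + 1) := by
  obtain ⟨h1, h2⟩ := s58g_apOfModel_bound W hq
  exact ⟨h2.ne, h1.ne'⟩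

end Fermat.Agent.S58
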