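import Mathlib
import Fermat.Prelude.Def_WeierstrassCurve_ConductorLevel
import Fermat.Prelude.Def_FLTPrelim_ModularRep
import Fermat.Prelude.Def_CuspForm_HeckeGaloisRepDatum
import Fermat.Prelude.Def_CuspForm_Newforms
import Fermat.Prelude.Def_GaloisRep_LocalConditions
import Fermat.Prelude.Def_GaloisRep_Residual
import Fermat.Agent.S58.GlueCmp
import Fermat.Agent.S58.GlueChi
import Fermat.Agent.S58.GlueCount
import Fermat.Agent.S58.Nf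
import Fermat.Agent.S58.Stab
import Fermat.Agent.EC.Opr
import Fermat.Agent.Common.FrobExists

/-!
# S58 GLUE (helper66): frozen S35 + frozen S36 ⟹ frozen S58

`s58g_of_frozen (h35 : S58GStmt35) (h36 : S58GStmt36) : <the frozen S58 statement>`, where
`S58GStmt35`, `S58GStmt36` are the types of the frozen statements S35, S36, copied verbatim.
The reserved constants are not cited.  Final wiring (once `Fermat.Agent.S35.result` and
`Fermat.Agent.S36.result` exist):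

`theorem result … := Fermat.Agent.S58.s58g_of_frozen @Fermat.Agent.S35.result
   @Fermat.Agent.S36.result W hss N p hp2 hirr hp2N hN hbad hN3`.

Proof (NOTES/S58-plan.md §1): newform `g` of minimal level `M ∣ N` with the eigenvalues of `W`
outside `N` (NF); S36 + CMP + BN2 exclude `q² ∥ M`; S35(b) + CMP + the trivial point count exclude
good `q ∥ M`; so `M ∣ C = rad Δ`; S35(a) + CMP + the integer-root trick (OPR) give
`a_ℓ(g) = a_ℓ(W)` at the good primes `ℓ ∣ N`; STAB raises the level from `M` to `C`.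
-/

set_option autoImplicit false

namespace Fermat.Agent.S58

open Polynomial Fermat.Agent.EC ModularFormClass CongruenceSubgroup

local notation "Γℚ" => (AlgebraicClosure ℚ ≃ₐ[ℚ] AlgebraicClosure ℚ)

/-- the type of the frozen statement S35, verbatim -/
def S58GStmt35 : Prop :=
  ∀ {M : ℕ} [NeZero M] {g : CuspForm (CongruenceSubgroup.Gamma0 M) 2} (_ : g.IsNewform)
    (lam : ℕ) [Fact lam.Prime]
    (S : Finset ℕ)
    (O' : Type) [CommRing O'] [IsDomain O'] [IsDiscreteValuationRing O']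
    [IsAdicComplete (IsLocalRing.maximalIdeal O') O'] [Finite (IsLocalRing.ResidueField O')]
    [CharZero O'] (_ : (lam : O') ∈ IsLocalRing.maximalIdeal O')
    (chig : CuspForm.heckeAlgebra M 2 (↑S : Set ℕ) →+* ℂ)
    (_ : ∀ (ℓ : ℕ) (hℓ : ℓ.Prime) (hℓM : ¬ ℓ ∣ M) (hℓS : ℓ ∉ (↑S : Set ℕ)),
      chig (CuspForm.heckeAlgebra.T hℓ hℓM hℓS) = ModularFormClass.qCoeff g ℓ)
    (iota : chig.range →+* O')
    (_ : lam ∈ S) (_ : ∀ q : ℕ, q.Prime → q ∣ M → q ∈ S),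
    ∃ (O'' : Type) (_ : CommRing O'') (_ : IsDomain O'') (_ : IsDiscreteValuationRing O'')
      (_ : IsAdicComplete (IsLocalRing.maximalIdeal O'') O'') (_ : Finite (IsLocalRing.ResidueField O''))
      (_ : CharZero O'') (_ : Algebra O' O'') (_ : Module.Finite O' O'') (_ : IsLocalHom (algebraMap O' O'')),
      Function.Injective (algebraMap O' O'') ∧
      ∃ ρ : GaloisRepAdic O'',
        (∀ (ℓ : ℕ) (hℓ : ℓ.Prime) (hℓM : ¬ ℓ ∣ M) (hℓS : ℓ ∉ (↑S : Set ℕ)),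
          ∀ A : ValuationSubring (AlgebraicClosure ℚ), A.LiesOverPrime ℓ →
            ∀ σ : AlgebraicClosure ℚ ≃ₐ[ℚ] AlgebraicClosure ℚ, A.IsFrobeniusAt σ ℓ →
              LinearMap.charpoly (ρ.ρ σ) =
                X ^ 2 - C (algebraMap O' O'' ((iota.comp chig.rangeRestrict) (CuspForm.heckeAlgebra.T hℓ hℓM hℓS))) * X
                  + C ((ℓ : O''))) ∧
        (∀ q : ℕ, q.Prime → q ≠ lam → q ∣ M → ¬ q ^ 2 ∣ M →
          ∀ A : ValuationSubring (AlgebraicClosure ℚ), A.LiesOverPrime q →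
            ∀ σ : AlgebraicClosure ℚ ≃ₐ[ℚ] AlgebraicClosure ℚ, A.IsFrobeniusAt σ q →
              LinearMap.charpoly (ρ.ρ σ) = X ^ 2 - C ((q : O'') + 1) * X + C ((q : O'')) ∨
              LinearMap.charpoly (ρ.ρ σ) = X ^ 2 + C ((q : O'') + 1) * X + C ((q : O'')))

/-- the type of the frozen statement S36, verbatim -/
def S58GStmt36 : Prop :=
  ∀ {M : ℕ} [NeZero M] {g : CuspForm (CongruenceSubgroup.Gamma0 M) 2} (_ : g.IsNewform)
    (lam : ℕ) [Fact lam.Prime]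
    (S : Finset ℕ)
    (O' : Type) [CommRing O'] [IsDomain O'] [IsDiscreteValuationRing O']
    [IsAdicComplete (IsLocalRing.maximalIdeal O') O'] [Finite (IsLocalRing.ResidueField O')]
    [CharZero O'] (_ : (lam : O') ∈ IsLocalRing.maximalIdeal O')
    (_ : lam ≠ 2)
    (chig : CuspForm.heckeAlgebra M 2 (↑S : Set ℕ) →+* ℂ)
    (_ : ∀ (ℓ : ℕ) (hℓ : ℓ.Prime) (hℓM : ¬ ℓ ∣ M) (hℓS : ℓ ∉ (↑S : Set ℕ)),
      chig (CuspForm.heckeAlgebra.T hℓ hℓM hℓS) = ModularFormClass.qCoeff g ℓ)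
    (iota : chig.range →+* O')
    (_ : lam ∈ S) (_ : ∀ q : ℕ, q.Prime → q ∣ M → q ∈ S)
    (_ : ∀ (O'' : Type) [CommRing O''] [IsDomain O''] [IsDiscreteValuationRing O'']
      [IsAdicComplete (IsLocalRing.maximalIdeal O'') O''] [Finite (IsLocalRing.ResidueField O'')] [CharZero O'']
      [Algebra O' O''] [Module.Finite O' O''] [IsLocalHom (algebraMap O' O'')],
      Function.Injective (algebraMap O' O'') → ∀ (ρ : GaloisRepAdic O''),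
      (∀ (ℓ : ℕ) (hℓ : ℓ.Prime) (_ : ℓ ≠ lam) (hℓM : ¬ ℓ ∣ M) (hℓS : ℓ ∉ (↑S : Set ℕ)),
        ∀ A : ValuationSubring (AlgebraicClosure ℚ), A.LiesOverPrime ℓ →
          ∀ σ : AlgebraicClosure ℚ ≃ₐ[ℚ] AlgebraicClosure ℚ, A.IsFrobeniusAt σ ℓ →
            LinearMap.charpoly (ρ.ρ σ) =
              X ^ 2 - C (algebraMap O' O'' ((iota.comp chig.rangeRestrict) (CuspForm.heckeAlgebra.T hℓ hℓM hℓS))) * X
                + C ((ℓ : O'')))
      → ρ.residual.IsAbsolutelyIrreducible ∧ ρ.residual.IsOdd),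
    ∃ (O'' : Type) (_ : CommRing O'') (_ : IsDomain O'') (_ : IsDiscreteValuationRing O'')
      (_ : IsAdicComplete (IsLocalRing.maximalIdeal O'') O'') (_ : Finite (IsLocalRing.ResidueField O''))
      (_ : CharZero O'') (_ : Algebra O' O'') (_ : Module.Finite O' O'') (_ : IsLocalHom (algebraMap O' O'')),
      Function.Injective (algebraMap O' O'') ∧
      ∃ ρ : GaloisRepAdic O'',
        (∀ (ℓ : ℕ) (hℓ : ℓ.Prime) (hℓM : ¬ ℓ ∣ M) (hℓS : ℓ ∉ (↑S : Set ℕ)),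
          ∀ A : ValuationSubring (AlgebraicClosure ℚ), A.LiesOverPrime ℓ →
            ∀ σ : AlgebraicClosure ℚ ≃ₐ[ℚ] AlgebraicClosure ℚ, A.IsFrobeniusAt σ ℓ →
              LinearMap.charpoly (ρ.ρ σ) =
                X ^ 2 - C (algebraMap O' O'' ((iota.comp chig.rangeRestrict) (CuspForm.heckeAlgebra.T hℓ hℓM hℓS))) * X
                  + C ((ℓ : O''))) ∧
        (∀ q : ℕ, q.Prime → q ≠ lam → M.factorization q = 2 → ¬ ρ.IsUnipotentOnInertiaAt q)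

/-! ### `ℤ_[lam]` as a coefficient ring -/

theorem s58g_finite_residue (lam : ℕ) [Fact lam.Prime] :
    Finite (IsLocalRing.ResidueField ℤ_[lam]) :=
  Finite.of_equiv (ZMod lam) (PadicInt.residueField (p := lam)).symm.toEquiv

theorem s58g_lam_mem (lam : ℕ) [Fact lam.Prime] :
    (lam : ℤ_[lam]) ∈ IsLocalRing.maximalIdeal ℤ_[lam] := by
  rw [PadicInt.maximalIdeal_eq_span_p]
  exact Ideal.subset_span rfl

/-! ### elementary preparation -/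

section Prep

variable (W : WeierstrassCurve ℤ)

theorem s58g_level_ne_zero {N p : ℕ} (hp2N : ¬ p ^ 2 ∣ N) : N ≠ 0 := by
  rintro rfl
  exact hp2N (dvd_zero _)

theorem s58g_Δ_ne_zero {N : ℕ} (hN : N ≠ 0)
    (hbad : ∀ ℓ : ℕ, ℓ.Prime → (ℓ : ℤ) ∣ W.Δ → ℓ ∣ N) : W.Δ ≠ 0 := by
  intro h0
  obtain ⟨ℓ, hℓN, hℓ⟩ := Nat.exists_infinite_primes (N + 1)
  have := Nat.le_of_dvd (Nat.pos_of_ne_zero hN) (hbad ℓ hℓ (by rw [h0]; exact dvd_zero _))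
  omega

theorem s58g_good_of_not_dvd {N : ℕ}
    (hbad : ∀ ℓ : ℕ, ℓ.Prime → (ℓ : ℤ) ∣ W.Δ → ℓ ∣ N) {ℓ : ℕ} (hℓ : ℓ.Prime) (hℓN : ¬ ℓ ∣ N) :
    W.IsGoodPrimeFor ℓ :=
  fun h => hℓN (hbad ℓ hℓ h)

/-- a squarefree number divides any number divisible by all its prime factors -/
theorem s58g_dvd_of_squarefree {M C : ℕ} (hM : Squarefree M) (hC : C ≠ 0)
    (h : ∀ q : ℕ, q.Prime → q ∣ M → q ∣ C) : M ∣ C := by
  have hM0 : M ≠ 0 := hM.ne_zero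
  rw [← Nat.prod_primeFactors_of_squarefree hM]
  refine dvd_trans (Finset.prod_dvd_prod_of_subset M.primeFactors C.primeFactors _ ?_)
    (Nat.prod_primeFactors_dvd C)
  intro q hq
  rw [Nat.mem_primeFactors] at hq ⊢
  exact ⟨hq.1, h q hq.1 hq.2.1, hC⟩

end Prep

/-! ### evaluation of `iota ∘ chig` at `T_ℓ` -/

section Iota

variable {M : ℕ} [NeZero M] {g : CuspForm (Gamma0 M) 2} {S : Finset ℕ}
  {O' : Type} [CommRing O']

theorem s58g_iota_T (chig : CuspForm.heckeAlgebra M 2 (↑S : Set ℕ) →+* ℂ)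
    (hchig : ∀ (ℓ : ℕ) (hℓ : ℓ.Prime) (hℓM : ¬ ℓ ∣ M) (hℓS : ℓ ∉ (↑S : Set ℕ)),
      chig (CuspForm.heckeAlgebra.T hℓ hℓM hℓS) = ModularFormClass.qCoeff g ℓ)
    (iota : chig.range →+* O') {ℓ : ℕ} (hℓ : ℓ.Prime) (hℓM : ¬ ℓ ∣ M) (hℓS : ℓ ∉ (↑S : Set ℕ))
    (n : ℤ) (hn : qCoeff ⇑g ℓ = (n : ℂ)) :
    (iota.comp chig.rangeRestrict) (CuspForm.heckeAlgebra.T hℓ hℓM hℓS) = (n : O') := by
  rw [RingHom.comp_apply]
  refine s58g_iota_int chig.range iota _ n ?_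
  rw [RingHom.coe_rangeRestrict, hchig ℓ hℓ hℓM hℓS, hn]

end Iota

/-! ### from clause (a) to the characteristic polynomials of the Tate module -/

section Cmp

variable (W : WeierstrassCurve ℤ) (hΔ : W.Δ ≠ 0) (lam : ℕ) [Fact lam.Prime]
  {M : ℕ} [NeZero M] {g : CuspForm (Gamma0 M) 2}

theorem s58g_cmp_of_frob (S : Finset ℕ)
    (chig : CuspForm.heckeAlgebra M 2 (↑S : Set ℕ) →+* ℂ)
    (hchig : ∀ (ℓ : ℕ) (hℓ : ℓ.Prime) (hℓM : ¬ ℓ ∣ M) (hℓS : ℓ ∉ (↑S : Set ℕ)),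
      chig (CuspForm.heckeAlgebra.T hℓ hℓM hℓS) = ModularFormClass.qCoeff g ℓ)
    (iota : chig.range →+* ℤ_[lam])
    (hlamS : lam ∈ S) (hMS : ∀ q : ℕ, q.Prime → q ∣ M → q ∈ S)
    (T : Finset ℕ)
    (hT : ∀ ℓ : ℕ, ℓ.Prime → ℓ ∉ T →
      ℓ ∉ S ∧ W.IsGoodPrimeFor ℓ ∧ qCoeff ⇑g ℓ = ((W.apOfModel ℓ : ℤ) : ℂ))
    (O'' : Type) [CommRing O''] [IsLocalRing O''] [IsNoetherianRing O''] [Algebra ℤ_[lam] O'']
    [IsLocalHom (algebraMap ℤ_[lam] O'')]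
    (ρ : GaloisRepAdic O'')
    (ha : ∀ (ℓ : ℕ) (hℓ : ℓ.Prime) (_ : ℓ ≠ lam) (hℓM : ¬ ℓ ∣ M) (hℓS : ℓ ∉ (↑S : Set ℕ)),
        ∀ A : ValuationSubring (AlgebraicClosure ℚ), A.LiesOverPrime ℓ →
          ∀ σ : AlgebraicClosure ℚ ≃ₐ[ℚ] AlgebraicClosure ℚ, A.IsFrobeniusAt σ ℓ →
            LinearMap.charpoly (ρ.ρ σ) =
              X ^ 2 - C (algebraMap ℤ_[lam] O'' ((iota.comp chig.rangeRestrict)
                (CuspForm.heckeAlgebra.T hℓ hℓM hℓS))) * X + C ((ℓ : O'')))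
    (σ : Γℚ) :
    LinearMap.charpoly (ρ.ρ σ)
      = (LinearMap.charpoly ((tateRepInt W hΔ lam).ρ σ)).map (algebraMap ℤ_[lam] O'') := by
  have hne : ∀ ℓ : ℕ, ℓ ∉ S → ℓ ≠ lam := by
    rintro ℓ hℓS rfl
    exact hℓS hlamS
  refine s58g_cmp_tate W hΔ lam (algebraMap ℤ_[lam] O'') ρ T
    (fun ℓ hℓ hℓT => ⟨(hT ℓ hℓ hℓT).2.1, hne ℓ (hT ℓ hℓ hℓT).1⟩) ?_ σ
  intro ℓ hℓ hℓT A hA τ hτ
  obtain ⟨hℓS, -, hq⟩ := hT ℓ hℓ hℓT
  have hℓM : ¬ ℓ ∣ M := fun h => hℓS (hMS ℓ hℓ h)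
  have hℓS' : ℓ ∉ (↑S : Set ℕ) := fun h => hℓS (Finset.mem_coe.mp h)
  rw [ha ℓ hℓ (hne ℓ hℓS) hℓM hℓS' A hA τ hτ,
    s58g_iota_T chig hchig iota hℓ hℓM hℓS' (W.apOfModel ℓ) hq, map_intCast]

end Cmp

/-! ### the three uses of S35/S36 -/

section Uses

variable (W : WeierstrassCurve ℤ) (hΔ : W.Δ ≠ 0) {N : ℕ} (hN0 : N ≠ 0)
  (hbad : ∀ ℓ : ℕ, ℓ.Prime → (ℓ : ℤ) ∣ W.Δ → ℓ ∣ N)
  {M : ℕ} [NeZero M] (hMN : M ∣ N) {g : CuspForm (Gamma0 M) 2} (hg : g.IsNewform)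
  (hgW : ∀ ℓ : ℕ, ℓ.Prime → ¬ ℓ ∣ N → qCoeff ⇑g ℓ = ((W.apOfModel ℓ : ℤ) : ℂ))

include hΔ hN0 hbad hMN hg hgW

/-- (2a) **Carayol**: no prime `q ≠ p` with `q² ∥ M`. -/
theorem s58g_no_sq (h36 : S58GStmt36) (hss : W.IsSemistableModel)
    (p : ℕ) [Fact p.Prime] (hp2 : p ≠ 2) (hirr : W.ModRepIsIrreducible p)
    {q : ℕ} (hq : q.Prime) (hqp : q ≠ p) (hfac : M.factorization q = 2) : False := by
  classical
  set S : Finset ℕ := insert p N.primeFactors with hS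
  have hpS : p ∈ S := Finset.mem_insert_self _ _
  have hMS : ∀ r : ℕ, r.Prime → r ∣ M → r ∈ S := fun r hr hrM =>
    Finset.mem_insert_of_mem (Nat.mem_primeFactors.mpr ⟨hr, hrM.trans hMN, hN0⟩)
  have hnotS : ∀ r : ℕ, r.Prime → r ∉ S → ¬ r ∣ N := fun r hr hrS hrN =>
    hrS (Finset.mem_insert_of_mem (Nat.mem_primeFactors.mpr ⟨hr, hrN, hN0⟩))
  obtain ⟨chig, hchig, hrange⟩ := s58g_exists_chig g hg.1 S hMS (Int.castRingHom ℂ).range
    (fun r hr _ hrS => ⟨W.apOfModel r, by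
      rw [hgW r hr (hnotS r hr (fun h => hrS (Finset.mem_coe.mpr h)))]; rfl⟩)
  obtain ⟨iota, -⟩ := opr_padicHom_of_int chig.range
    (fun x hx => by obtain ⟨n, hn⟩ := hrange x hx; exact ⟨n, hn⟩) p
  have hT : ∀ ℓ : ℕ, ℓ.Prime → ℓ ∉ S →
      ℓ ∉ S ∧ W.IsGoodPrimeFor ℓ ∧ qCoeff ⇑g ℓ = ((W.apOfModel ℓ : ℤ) : ℂ) :=
    fun ℓ hℓ hℓS => ⟨hℓS, s58g_good_of_not_dvd W hbad hℓ (hnotS ℓ hℓ hℓS),
      hgW ℓ hℓ (hnotS ℓ hℓ hℓS)⟩
  have := s58g_finite_residue p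
  obtain ⟨O'', _, _, _, _, _, _, _, _, _, -, ρ, ha, hb⟩ :=
    h36 hg p S ℤ_[p] (s58g_lam_mem p) hp2 chig hchig iota hpS hMS
      (fun O'' _ _ _ _ _ _ _ _ _ _ ρ hρ =>
        s58g_hres W hΔ p hp2 hirr (algebraMap ℤ_[p] O'') ρ
          (s58g_cmp_of_frob W hΔ p S chig hchig iota hpS hMS S hT O'' ρ hρ))
  have hcp := s58g_cmp_of_frob W hΔ p S chig hchig iota hpS hMS S hT O'' ρ
    (fun ℓ hℓ _ hℓM hℓS => ha ℓ hℓ hℓM hℓS)
  exact hb q hq hqp hfac (s58g_unipotent_of_charpoly (algebraMap ℤ_[p] O'') _ ρ hcp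
    (Fermat.Agent.RED.tateRepInt_isUnipotentOnInertiaAt_of_semistable_all W hΔ hss p hp2 hq hqp))

/-- (2b) no good prime `q` with `q ∥ M`. -/
theorem s58g_no_good (h35 : S58GStmt35) {q : ℕ} (hq : q.Prime) (hqM : q ∣ M)
    (hq2 : ¬ q ^ 2 ∣ M) (hgood : W.IsGoodPrimeFor q) : False := by
  classical
  obtain ⟨lam, hlam, hqlam⟩ : ∃ lam : ℕ, lam.Prime ∧ q ≠ lam := by
    by_cases h : q = 3
    · exact ⟨5, by norm_num, by omega⟩
    · exact ⟨3, Nat.prime_three, h⟩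
  have : Fact lam.Prime := ⟨hlam⟩
  set S : Finset ℕ := insert lam N.primeFactors with hS
  have hlamS : lam ∈ S := Finset.mem_insert_self _ _
  have hMS : ∀ r : ℕ, r.Prime → r ∣ M → r ∈ S := fun r hr hrM =>
    Finset.mem_insert_of_mem (Nat.mem_primeFactors.mpr ⟨hr, hrM.trans hMN, hN0⟩)
  have hnotS : ∀ r : ℕ, r.Prime → r ∉ S → ¬ r ∣ N := fun r hr hrS hrN =>
    hrS (Finset.mem_insert_of_mem (Nat.mem_primeFactors.mpr ⟨hr, hrN, hN0⟩))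
  obtain ⟨chig, hchig, hrange⟩ := s58g_exists_chig g hg.1 S hMS (Int.castRingHom ℂ).range
    (fun r hr _ hrS => ⟨W.apOfModel r, by
      rw [hgW r hr (hnotS r hr (fun h => hrS (Finset.mem_coe.mpr h)))]; rfl⟩)
  obtain ⟨iota, -⟩ := opr_padicHom_of_int chig.range
    (fun x hx => by obtain ⟨n, hn⟩ := hrange x hx; exact ⟨n, hn⟩) lam
  have hT : ∀ ℓ : ℕ, ℓ.Prime → ℓ ∉ S →
      ℓ ∉ S ∧ W.IsGoodPrimeFor ℓ ∧ qCoeff ⇑g ℓ = ((W.apOfModel ℓ : ℤ) : ℂ) :=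
    fun ℓ hℓ hℓS => ⟨hℓS, s58g_good_of_not_dvd W hbad hℓ (hnotS ℓ hℓ hℓS),
      hgW ℓ hℓ (hnotS ℓ hℓ hℓS)⟩
  have := s58g_finite_residue lam
  obtain ⟨O'', _, _, _, _, _, _, _, _, _, hinj, ρ, ha, hb⟩ :=
    h35 hg lam S ℤ_[lam] (s58g_lam_mem lam) chig hchig iota hlamS hMS
  have hcp := s58g_cmp_of_frob W hΔ lam S chig hchig iota hlamS hMS S hT O'' ρ
    (fun ℓ hℓ _ hℓM hℓS => ha ℓ hℓ hℓM hℓS)
  obtain ⟨A, σ, hA, hσ⟩ := Fermat.Agent.Common.exists_isFrobeniusAt q hq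
  have hne := s58g_apOfModel_ne W hq
  rcases hb q hq hqlam hqM hq2 A hA σ hσ with h | h
  · rw [hcp σ] at h
    have h1 := s58g_trace_of_map_charpoly W hΔ lam (algebraMap ℤ_[lam] O'') hinj hq hgood hqlam
      A hA σ hσ _ h
    have h2 : (((q : ℤ) + 1 : ℤ) : O'') = ((W.apOfModel q : ℤ) : O'') := by
      rw [← h1]; push_cast; ring
    exact hne.1 (Int.cast_injective h2).symm
  · rw [hcp σ] at h
    have h' : (LinearMap.charpoly ((tateRepInt W hΔ lam).ρ σ)).map (algebraMap ℤ_[lam] O'')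
        = X ^ 2 - C (-((q : O'') + 1)) * X + C (q : O'') := by
      rw [h, map_neg]; ring
    have h1 := s58g_trace_of_map_charpoly W hΔ lam (algebraMap ℤ_[lam] O'') hinj hq hgood hqlam
      A hA σ hσ _ h'
    have h2 : ((-((q : ℤ) + 1) : ℤ) : O'') = ((W.apOfModel q : ℤ) : O'') := by
      rw [← h1]; push_cast; ring
    exact hne.2 (Int.cast_injective h2).symm

/-- (3) the eigenvalue of `g` at a good prime `ℓ ∤ M` is `a_ℓ(W)` (also when `ℓ ∣ N`). -/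
theorem s58g_coeff_eq (h35 : S58GStmt35) {ℓ : ℕ} (hℓ : ℓ.Prime) (hgood : W.IsGoodPrimeFor ℓ)
    (hℓM : ¬ ℓ ∣ M) : qCoeff ⇑g ℓ = ((W.apOfModel ℓ : ℤ) : ℂ) := by
  classical
  by_cases hℓN : ℓ ∣ N
  swap
  · exact hgW ℓ hℓ hℓN
  set a : ℂ := qCoeff ⇑g ℓ with ha_def
  have haint : IsIntegral ℤ a := Fermat.Agent.S42.isIntegral_qCoeff_prime g hg.1 hℓ hℓM
  obtain ⟨lam, hlamF, hlamB, ⟨ι₀⟩⟩ := opr_exists_hom a haint N.primeFactors
  have : Fact lam.Prime := hlamF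
  have hℓlam : ℓ ≠ lam := by
    rintro rfl
    exact hlamB (Nat.mem_primeFactors.mpr ⟨hℓ, hℓN, hN0⟩)
  set S : Finset ℕ := insert lam (N.primeFactors.erase ℓ) with hS
  set T : Finset ℕ := insert lam N.primeFactors with hT_def
  have hlamS : lam ∈ S := Finset.mem_insert_self _ _
  have hMS : ∀ r : ℕ, r.Prime → r ∣ M → r ∈ S := fun r hr hrM =>
    Finset.mem_insert_of_mem (Finset.mem_erase.mpr
      ⟨fun h => hℓM (h ▸ hrM), Nat.mem_primeFactors.mpr ⟨hr, hrM.trans hMN, hN0⟩⟩)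
  have hST : ∀ r : ℕ, r ∉ T → r ∉ S := by
    intro r hrT hrS
    rcases Finset.mem_insert.mp hrS with h | h
    · exact hrT (h ▸ Finset.mem_insert_self _ _)
    · exact hrT (Finset.mem_insert_of_mem (Finset.mem_of_mem_erase h))
  have hnotT : ∀ r : ℕ, r.Prime → r ∉ T → ¬ r ∣ N := fun r hr hrT hrN =>
    hrT (Finset.mem_insert_of_mem (Nat.mem_primeFactors.mpr ⟨hr, hrN, hN0⟩))
  have hℓS : ℓ ∉ S := by
    intro h
    rcases Finset.mem_insert.mp h with h | h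
    · exact hℓlam h
    · exact (Finset.mem_erase.mp h).1 rfl
  obtain ⟨chig, hchig, hrange⟩ := s58g_exists_chig g hg.1 S hMS
    (Algebra.adjoin ℤ ({a} : Set ℂ)).toSubring
    (fun r hr _ hrS => by
      by_cases hrℓ : r = ℓ
      · rw [hrℓ]
        exact Algebra.subset_adjoin (Set.mem_singleton a)
      · have hrN : ¬ r ∣ N := fun hrN => hrS (Finset.mem_coe.mpr (Finset.mem_insert_of_mem
          (Finset.mem_erase.mpr ⟨hrℓ, Nat.mem_primeFactors.mpr ⟨hr, hrN, hN0⟩⟩)))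
        rw [hgW r hr hrN]
        exact intCast_mem _ _)
  set iota : chig.range →+* ℤ_[lam] := ι₀.comp (Subring.inclusion hrange) with hiota
  have hT : ∀ r : ℕ, r.Prime → r ∉ T →
      r ∉ S ∧ W.IsGoodPrimeFor r ∧ qCoeff ⇑g r = ((W.apOfModel r : ℤ) : ℂ) :=
    fun r hr hrT => ⟨hST r hrT, s58g_good_of_not_dvd W hbad hr (hnotT r hr hrT),
      hgW r hr (hnotT r hr hrT)⟩
  have := s58g_finite_residue lam
  obtain ⟨O'', _, _, _, _, _, _, _, _, _, hinj, ρ, ha, -⟩ :=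
    h35 hg lam S ℤ_[lam] (s58g_lam_mem lam) chig hchig iota hlamS hMS
  have hcp := s58g_cmp_of_frob W hΔ lam S chig hchig iota hlamS hMS T hT O'' ρ
    (fun r hr _ hrM hrS => ha r hr hrM hrS)
  obtain ⟨A, σ, hA, hσ⟩ := Fermat.Agent.Common.exists_isFrobeniusAt ℓ hℓ
  have hℓS' : ℓ ∉ (↑S : Set ℕ) := fun h => hℓS (Finset.mem_coe.mp h)
  have h := ha ℓ hℓ hℓM hℓS' A hA σ hσ
  rw [hcp σ] at h
  have h1 := s58g_trace_of_map_charpoly W hΔ lam (algebraMap ℤ_[lam] O'') hinj hℓ hgood hℓlam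
    A hA σ hσ _ h
  have h2 : (iota.comp chig.rangeRestrict) (CuspForm.heckeAlgebra.T hℓ hℓM hℓS')
      = ((W.apOfModel ℓ : ℤ) : ℤ_[lam]) := by
    apply hinj
    rw [h1, map_intCast]
  have haR : a ∈ chig.range := ⟨CuspForm.heckeAlgebra.T hℓ hℓM hℓS', hchig ℓ hℓ hℓM hℓS'⟩
  refine opr_eq_intCast_of_hom chig.range a haR haint iota (W.apOfModel ℓ) ?_
  have h3 : (⟨a, haR⟩ : chig.range)
      = chig.rangeRestrict (CuspForm.heckeAlgebra.T hℓ hℓM hℓS') :=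
    Subtype.ext (hchig ℓ hℓ hℓM hℓS').symm
  rw [h3, ← RingHom.comp_apply, h2]

end Uses

/-! ### the main theorem -/

/-- **S58 from the frozen statements S35 and S36.** -/
theorem s58g_of_frozen (h35 : S58GStmt35) (h36 : S58GStmt36)
    (W : WeierstrassCurve ℤ) (hss : W.IsSemistableModel) (N : ℕ)
    (p : ℕ) [Fact p.Prime] (hp2 : p ≠ 2) (hirr : W.ModRepIsIrreducible p)
    (hp2N : ¬ p ^ 2 ∣ N)
    (hN : W.IsModularModelOfLevel N) (hbad : ∀ ℓ : ℕ, ℓ.Prime → (ℓ : ℤ) ∣ W.Δ → ℓ ∣ N)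
    (hN3 : ∀ q : ℕ, q.Prime → ¬ q ^ 3 ∣ N) :
    W.IsModularModelOfLevel W.conductorLevel := by
  have hN0 := s58g_level_ne_zero hp2N
  have hΔ := s58g_Δ_ne_zero W hN0 hbad
  obtain ⟨f, hf, hfq⟩ := hN
  obtain ⟨M, hMN, g, hg, hgf⟩ := nf_exists_newform hN0 f hf
  have hM0 : M ≠ 0 := fun h => hN0 (Nat.eq_zero_of_zero_dvd (h ▸ hMN))
  have : NeZero M := ⟨hM0⟩
  have hgW : ∀ ℓ : ℕ, ℓ.Prime → ¬ ℓ ∣ N → qCoeff ⇑g ℓ = ((W.apOfModel ℓ : ℤ) : ℂ) :=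
    fun ℓ hℓ hℓN => by
      rw [hgf ℓ hℓ hℓN]
      exact hfq ℓ hℓ (s58g_good_of_not_dvd W hbad hℓ hℓN) hℓN
  -- (2a) no `q² ∣ M`
  have h2a : ∀ q : ℕ, q.Prime → ¬ q ^ 2 ∣ M := by
    intro q hq hq2
    have hqp : q ≠ p := by
      rintro rfl
      exact hp2N (hq2.trans hMN)
    have hfac : M.factorization q = 2 := by
      have h1 : 2 ≤ M.factorization q := (hq.pow_dvd_iff_le_factorization hM0).mp hq2
      have h2 : ¬ 3 ≤ M.factorization q := fun h =>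
        hN3 q hq (((hq.pow_dvd_iff_le_factorization hM0).mpr h).trans hMN)
      omega
    exact s58g_no_sq W hΔ hN0 hbad hMN hg hgW h36 hss p hp2 hirr hq hqp hfac
  have hMsq : Squarefree M := by
    rw [Nat.squarefree_iff_prime_squarefree]
    intro q hq hqq
    exact h2a q hq (by rw [pow_two]; exact hqq)
  -- (2b) every prime dividing `M` is bad
  have h2b : ∀ q : ℕ, q.Prime → q ∣ M → q ∣ W.conductorLevel := by
    intro q hq hqM
    rw [W.prime_dvd_conductorLevel_iff hΔ hq]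
    by_contra hgood
    exact s58g_no_good W hΔ hN0 hbad hMN hg hgW h35 hq hqM (h2a q hq) hgood
  have hC0 : W.conductorLevel ≠ 0 := W.conductorLevel_pos.ne'
  have hMC : M ∣ W.conductorLevel := s58g_dvd_of_squarefree hMsq hC0 h2b
  -- (3) + STAB
  obtain ⟨h, hh, hq⟩ := stab_exists_prime hC0 hMC g hg.1
  refine ⟨h, hh, fun ℓ hℓ hgood hℓC => ?_⟩
  rw [hq ℓ hℓ hℓC]
  exact s58g_coeff_eq W hΔ hN0 hbad hMN hg hgW h35 hℓ hgood (fun hℓM => hℓC (hℓM.trans hMC))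

end Fermat.Agent.S58
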